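/-
S15lib / Fin / Main (helper1).  Project E, block FIN.

**`FinStmt`** of `S15lib/Iface.lean`: the reduction at `A ∣ ℓ`, `ℓ ≠ p`, of the rational points of
`J₀(p)` is finite.  A rational point is fixed by a Frobenius element at `A`, reduction intertwines it
with the coefficientwise Frobenius of the residue curve (`S37lib.C0.hfrob`), and the latter fixes only
finitely many classes (`Fin/Abstract`, `Fin/Inst`).
-/
import Mathlib
import Fermat.Agent.S15lib.Iface
import Fermat.Agent.S15lib.Fin.Inst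
import Fermat.Agent.S37lib.B3.Inst
import Fermat.Agent.S37lib.B3.Unique
import Fermat.Agent.S44lib.AnnInst.Frob

set_option autoImplicit false
set_option linter.unusedSectionVars false
set_option linter.style.haveILetI false

noncomputable section

namespace Fermat.Agent.S15lib.Fin

open AlgebraicCurve ModularCurve Module
open Fermat.Agent.S18lib Fermat.Agent.S37lib.C0

variable (A : ValuationSubring (AlgebraicClosure ℚ)) (N : ℕ) [NeZero N]

local notation "Qb" => AlgebraicClosure ℚ
local notation "kA" => IsLocalRing.ResidueField A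

section Frob

variable (ℓ : ℕ) [Fact ℓ.Prime] [ExpChar (IsLocalRing.ResidueField A) ℓ]
  [PerfectRing (IsLocalRing.ResidueField A) ℓ]

lemma frobeniusEquiv_pow_apply (m : ℕ) (c : kA) :
    ((frobeniusEquiv kA ℓ : RingAut kA) ^ m) c = c ^ (ℓ ^ m) := by
  induction m generalizing c with
  | zero => simp
  | succ m ih =>
    rw [pow_succ, RingAut.mul_apply, ih, frobeniusEquiv_apply, frobenius_def, ← pow_mul, pow_succ']

lemma finite_fixed_frob_pow {m : ℕ} (hm : 0 < m) :
    {c : kA | ((frobeniusEquiv kA ℓ : RingAut kA) ^ m) c = c}.Finite := by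
  have hℓ : 1 < ℓ := (Fact.out : ℓ.Prime).one_lt
  have hne : (Polynomial.X ^ ℓ ^ m - Polynomial.X : Polynomial kA) ≠ 0 :=
    FiniteField.X_pow_card_pow_sub_X_ne_zero kA hm.ne' hℓ
  refine (Polynomial.finite_setOfPred_isRoot hne).subset ?_
  intro c hc
  have hc' : ((frobeniusEquiv kA ℓ : RingAut kA) ^ m) c = c := hc
  rw [frobeniusEquiv_pow_apply] at hc'
  show Polynomial.IsRoot _ c
  rw [Polynomial.IsRoot, Polynomial.eval_sub, Polynomial.eval_pow, Polynomial.eval_X, hc', sub_self]

lemma frobAut_pow (m : ℕ) :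
    (frobAut A N ℓ) ^ m = resAut kA N ((frobeniusEquiv kA ℓ : RingAut kA) ^ m) :=
  (map_pow (resAut kA N) _ m).symm

/-- **the coefficientwise Frobenius fixes only finitely many classes of `JZeroC k N`** -/
theorem finite_frobAut_fixed_classes {g : ℕ} (hFk : IsCurveOfGenus kA (FRes A N) g) :
    {y : JZeroC kA N | frobAut A N ℓ • y = y}.Finite := by
  refine finite_fixed_classes hFk (frobAut A N ℓ) (pInfK A N) (resAut_smul_pInfK A N _) ?_
  intro m hm
  rw [frobAut_pow]
  exact finite_fixed_places A N hFk _ (finite_fixed_frob_pow A ℓ hm)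

end Frob

/-- **(FIN)** -/
theorem finStmt : FinStmt := by
  intro p hp ℓ hℓ hℓp A hA
  haveI : Fact ℓ.Prime := ⟨hℓ⟩
  haveI : NeZero p := ⟨hp.ne_zero⟩
  have hℓN : ¬ ℓ ∣ p := fun h => hℓp ((Nat.prime_dvd_prime_iff_eq hℓ hp).mp h)
  obtain ⟨σ, hσ⟩ := Fermat.Agent.S44lib.AnnInst.exists_isFrobeniusAt_of_liesOver hℓ hA
  obtain ⟨g, -, hFk⟩ := Fermat.Agent.S37lib.B3.exists_genus_level p A hℓN hA
    (Fermat.Agent.S37lib.B3.reductionInputsModL p A hℓN hA)
  haveI := expChar_kRes hA
  haveI := perfectRing_kRes hA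
  refine (finite_frobAut_fixed_classes A p ℓ hFk).subset ?_
  rintro _ ⟨z, hz, rfl⟩
  have h1 := hfrob p A hℓN hA σ hσ z
  have hz' : σ • z = z := hz σ
  rw [hz'] at h1
  exact h1.symm

end Fermat.Agent.S15lib.Fin
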