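/-
S15lib / Fin / Abstract (helper1).  Project E, block FIN.

`F / k` a curve of genus `g` (`S18lib.IsCurveOfGenus`), `Φ` a semilinear automorphism fixing a place
`P₀`, such that every power `Φ ^ m`, `m ≥ 1`, fixes only finitely many places.  Then `Φ` fixes only
finitely many classes of `Pic⁰`.

Every class is `[E - n P₀]` for an effective `E` of degree `n ≤ g` with `ℓ(E) = 1` (take `n` minimal
with `ℓ(D + n P₀) ≠ 0`); such an `E` is alone in its linear system, so a `Φ`-fixed class has a
`Φ`-fixed `E`; and the `Φ`-fixed effective divisors of degree `≤ g` are supported in the finite set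
of places fixed by `Φ ^ (g!)`.
-/
import Mathlib
import Fermat.Agent.S19lib.B.Kernel
import Fermat.Agent.S18lib.RRgen.Principal
import Fermat.Agent.S37lib.Red.Curve
import Fermat.Prelude.Def_AlgebraicCurve_BaseChangeGalois

set_option autoImplicit false
set_option linter.unusedSectionVars false
set_option linter.style.haveILetI false

noncomputable section

namespace Fermat.Agent.S15lib.Fin

open AlgebraicCurve Module
open Fermat.Agent.S18lib Fermat.Agent.S18lib.Cech Fermat.Agent.S19lib.B

variable {k F : Type*} [Field k] [Field F] [Algebra k F] {g : ℕ}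

section Rep

variable (hF : IsCurveOfGenus k F g) (P₀ : Place k F)
include hF

lemma ell_eq_zero_of_degree_neg {E : Divisor k F} (hE : Divisor.degree E < 0) : ell E = 0 := by
  have h : riemannRochSpace E = ⊥ := by
    rw [Submodule.eq_bot_iff]
    intro f hf
    exact eq_zero_of_mem_rr_of_degree_neg hF hE hf
  rw [ell, h, finrank_bot]

lemma degree_add_zsmul_pt (D : Divisor k F) (n : ℤ) :
    Divisor.degree (D + n • pt P₀) = Divisor.degree D + n := by
  rw [map_add, map_zsmul, pt, Divisor.degree_single, hF.deg_eq_one]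
  simp

/-- multiplication by `f` : `L(E) → L(E')`, `E' = E - div f`, is injective -/
lemma ell_le_of_ord {f : F} (hf : f ≠ 0) (E E' : Divisor k F)
    (h : ∀ v : Place k F, E' v = E v - v.ord f) : ell E ≤ ell E' := by
  have := hF.finiteDimensional E'
  have hmem : ∀ x ∈ riemannRochSpace E, x * f ∈ riemannRochSpace E' := by
    intro x hx
    rw [mem_riemannRochSpace_iff] at hx ⊢
    intro v
    rcases hx v with rfl | hv
    · left; rw [zero_mul]
    · by_cases hx0 : x = 0
      · left; rw [hx0, zero_mul]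
      · right
        rw [v.ord_mul hx0 hf, h v]
        omega
  let φ : riemannRochSpace E →ₗ[k] riemannRochSpace E' :=
    LinearMap.codRestrict _ ((LinearMap.mulRight k f).domRestrict (riemannRochSpace E))
      (fun x => hmem x x.2)
  have hφ : Function.Injective φ := by
    intro x x' hxx'
    have h1 : (x : F) * f = (x' : F) * f := congrArg Subtype.val hxx'
    exact Subtype.ext (mul_right_cancel₀ hf h1)
  exact LinearMap.finrank_le_finrank_of_injective hφ

/-- **rigid representatives**: every class is `[E - n P₀]`, `E ≥ 0`, `ℓ(E) = 1`, `n ≤ g`. -/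
theorem exists_rigid_rep (y : Pic0 k F) :
    ∃ (n : ℕ) (E : Divisor k F), n ≤ g ∧ 0 ≤ E ∧ ell E = 1 ∧
      ∃ h : E - (n : ℤ) • pt P₀ ∈ Divisor.degZero (K := k) (F := F), Pic0.mk ⟨_, h⟩ = y := by
  classical
  obtain ⟨⟨D, hD⟩, rfl⟩ := Pic0.mk_surjective y
  have hD0 : Divisor.degree D = 0 := hD
  haveI := hF.hasPrincipalDivisors
  have key : ∀ n : ℤ, n = g → ell (D + n • pt P₀) ≠ 0 := by
    intro n hn h0
    subst hn
    have h1 := hF.riemann_le (D + (g : ℤ) • pt P₀)
    rw [degree_add_zsmul_pt hF, hD0] at h1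
    rw [ell] at h0
    rw [h0] at h1
    simp at h1
  have hex : ∃ n : ℕ, ell (D + ((n : ℤ) - 1) • pt P₀) ≠ 0 :=
    ⟨g + 1, key _ (by push_cast; ring)⟩
  have hn := Nat.find_spec hex
  have hn0 : Nat.find hex ≠ 0 := by
    intro h0
    rw [h0] at hn
    apply hn
    apply ell_eq_zero_of_degree_neg hF
    rw [degree_add_zsmul_pt hF, hD0]
    norm_num
  obtain ⟨m, hm⟩ := Nat.exists_eq_succ_of_ne_zero hn0
  have hmg : m ≤ g := by
    have : Nat.find hex ≤ g + 1 := Nat.find_min' hex (key _ (by push_cast; ring))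
    omega
  have hprev : ell (D + ((m : ℤ) - 1) • pt P₀) = 0 := by
    by_contra hne
    exact Nat.find_min hex (by omega : m < Nat.find hex) hne
  set E₀ : Divisor k F := D + (m : ℤ) • pt P₀ with hE₀
  have hE₀' : E₀ = (D + ((m : ℤ) - 1) • pt P₀) + pt P₀ := by
    rw [hE₀, add_assoc, sub_smul, one_smul, sub_add_cancel]
  have hcast : ((Nat.find hex : ℕ) : ℤ) - 1 = (m : ℤ) := by
    rw [hm]
    push_cast
    ring
  rw [hcast] at hn
  have hell₀ : ell E₀ = 1 := by
    have h1 := ell_add_single_le hF (D + ((m : ℤ) - 1) • pt P₀) P₀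
    rw [← hE₀', hprev] at h1
    have h2 : ell E₀ ≠ 0 := hn
    omega
  -- a nonzero section
  have := hF.finiteDimensional E₀
  have hpos : 0 < finrank k (riemannRochSpace E₀) := by
    have : finrank k (riemannRochSpace E₀) = 1 := hell₀
    omega
  obtain ⟨⟨f, hfmem⟩, hfne⟩ := Module.finrank_pos_iff_exists_ne_zero.1 hpos
  have hf0 : f ≠ 0 := fun h => hfne (Subtype.ext h)
  obtain ⟨Df, hDf, hdegf⟩ := HasPrincipalDivisors.exists_divisor (K := k) f hf0
  set E : Divisor k F := E₀ + Df with hE
  have hEnn : 0 ≤ E := by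
    rw [Finsupp.le_def]
    intro v
    have h1 : E v = E₀ v + Df v := by rw [hE, Finsupp.add_apply]
    rw [Finsupp.zero_apply, h1, hDf]
    rcases (mem_riemannRochSpace_iff.1 hfmem) v with h0 | h1
    · exact absurd h0 hf0
    · linarith
  have hEv : ∀ v : Place k F, E₀ v = E v - v.ord f := by
    intro v
    have h1 : E v = E₀ v + Df v := by rw [hE, Finsupp.add_apply]
    rw [h1, hDf]
    ring
  have hellE : ell E = 1 := by
    have h1 := ell_le_of_ord hF hf0 E E₀ hEv
    have h2 := ell_le_of_ord hF (inv_ne_zero hf0) E₀ E (fun v => by rw [hEv v, v.ord_inv]; ring)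
    omega
  have hsub : E - (m : ℤ) • pt P₀ = D + Df := by
    rw [hE, hE₀]
    abel
  have hmem : E - (m : ℤ) • pt P₀ ∈ Divisor.degZero (K := k) (F := F) := by
    rw [hsub, Divisor.mem_degZero, map_add, hD0, hdegf, add_zero]
  refine ⟨m, E, hmg, hEnn, hellE, hmem, ?_⟩
  refine (QuotientAddGroup.eq).2 ?_
  rw [AddSubgroup.mem_addSubgroupOf]
  show -(E - (m : ℤ) • pt P₀) + D ∈ Divisor.principal (K := k) (F := F)
  rw [hsub]
  have : -(D + Df) + D = -Df := by abel
  rw [this]
  exact AddSubgroup.neg_mem _ ⟨f, hf0, hDf⟩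

/-- a `Φ`-fixed class has a `Φ`-fixed rigid representative -/
theorem smul_eq_of_fixed (Φ : SemilinearAut k F) (hP₀ : Φ • P₀ = P₀) {n : ℕ} {E : Divisor k F}
    (hE : 0 ≤ E) (hell : ell E = 1)
    (h : E - (n : ℤ) • pt P₀ ∈ Divisor.degZero (K := k) (F := F))
    (hfix : Φ • (Pic0.mk ⟨_, h⟩ : Pic0 k F) = Pic0.mk ⟨_, h⟩) : Φ • E = E := by
  rw [SemilinearAut.pic0_smul_mk] at hfix
  have h1 := (QuotientAddGroup.eq).1 hfix
  rw [AddSubgroup.mem_addSubgroupOf] at h1
  have h2 : -(Φ • (E - (n : ℤ) • pt P₀)) + (E - (n : ℤ) • pt P₀) ∈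
      Divisor.principal (K := k) (F := F) := h1
  have h3 : Φ • (E - (n : ℤ) • pt P₀) = Φ • E - (n : ℤ) • pt P₀ := by
    rw [smul_sub, smul_comm, pt, SemilinearAut.smul_single, hP₀]
  rw [h3] at h2
  have h4 : Φ • E - E ∈ Divisor.principal (K := k) (F := F) := by
    have := AddSubgroup.neg_mem _ h2
    convert this using 1
    abel
  have hE' : 0 ≤ Φ • E := by
    rw [Finsupp.le_def]
    intro w
    rw [Finsupp.zero_apply, SemilinearAut.divisor_smul_apply]
    exact Finsupp.le_def.1 hE _
  exact eq_of_principal_of_ell_eq_one hF hE hell hE' h4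

end Rep

/-! ### fixed places -/

section Places

variable (hF : IsCurveOfGenus k F g) (Φ : SemilinearAut k F)

lemma ord_smul_of_fixed {P : Place k F} (hP : Φ • P = P) (f : F) : P.ord (Φ • f) = P.ord f := by
  have h := SemilinearAut.ord_smul Φ P f
  rw [hP] at h
  exact h

include hF in
/-- **a semilinear automorphism fixing a nonconstant function `x` and only finitely many constants
fixes only finitely many places**: a fixed place is a pole of `x` or lies over a fixed value. -/
theorem finite_fixed_places_of_fixed (x : F) (hx : ∀ c : k, x - algebraMap k F c ≠ 0)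
    (hΦx : Φ • x = x) (hτ : {c : k | SemilinearAut.baseAut Φ c = c}.Finite) :
    {P : Place k F | Φ • P = P}.Finite := by
  classical
  haveI := hF.hasPrincipalDivisors
  have hx0 : x ≠ 0 := by
    have := hx 0
    rwa [map_zero, sub_zero] at this
  obtain ⟨Dx, hDx, -⟩ := HasPrincipalDivisors.exists_divisor (K := k) x hx0
  have hpoles : {P : Place k F | P.ord x < 0}.Finite := by
    refine (Finset.finite_toSet Dx.support).subset ?_
    intro P hP
    have hP' : P.ord x < 0 := hP
    rw [Finset.mem_coe, Finsupp.mem_support_iff, hDx]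
    omega
  have hfib : ∀ c : k, {P : Place k F | 1 ≤ P.ord (x - algebraMap k F c)}.Finite := by
    intro c
    obtain ⟨Dc, hDc, -⟩ := HasPrincipalDivisors.exists_divisor (K := k) _ (hx c)
    refine (Finset.finite_toSet Dc.support).subset ?_
    intro P hP
    have hP' : 1 ≤ P.ord (x - algebraMap k F c) := hP
    rw [Finset.mem_coe, Finsupp.mem_support_iff, hDc]
    omega
  have hunion : (⋃ c ∈ hτ.toFinset, {P : Place k F | 1 ≤ P.ord (x - algebraMap k F c)}).Finite :=
    Set.Finite.biUnion (Finset.finite_toSet _) fun c _ => hfib c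
  refine (hpoles.union hunion).subset ?_
  intro P hP
  have hPfix : Φ • P = P := hP
  by_cases hpole : P.ord x < 0
  · exact Or.inl hpole
  right
  push Not at hpole
  have hxmem : x ∈ P.toValuationSubring := Fermat.Agent.ProgramR.FF.mem_of_ord_nonneg P hpole
  obtain ⟨c, hc | hc⟩ := exists_value_of_deg_eq_one P (hF.deg_eq_one P) hxmem
  · exact absurd (sub_eq_zero.mpr hc) (hx c)
  set c' : k := SemilinearAut.baseAut Φ c with hc'
  have hΦxc : Φ • (x - algebraMap k F c) = x - algebraMap k F c' := by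
    rw [smul_sub, hΦx, SemilinearAut.smul_algebraMap]
  have hord : 1 ≤ P.ord (x - algebraMap k F c') := by
    rw [← hΦxc, ord_smul_of_fixed Φ hPfix]
    exact hc
  have hτc : c' = c := by
    by_contra hne
    have hdiff : (x - algebraMap k F c) - (x - algebraMap k F c') = algebraMap k F (c' - c) := by
      rw [map_sub]
      ring
    have h0 : P.ord (algebraMap k F (c' - c)) = 0 := ord_const P _
    have hne' : algebraMap k F (c' - c) ≠ 0 := (map_ne_zero _).2 (sub_ne_zero.mpr hne)
    have h1 : (algebraMap k F (c' - c) = 0) ∨ 1 ≤ P.ord (algebraMap k F (c' - c)) := by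
      rw [← hdiff, sub_eq_add_neg]
      refine ord_add_ge P (Or.inr hc) ?_
      right
      rw [ord_neg]
      exact hord
    rcases h1 with h1 | h1
    · exact hne' h1
    · omega
  refine Set.mem_biUnion (x := c) ?_ hc
  rw [Finset.mem_coe, Set.Finite.mem_toFinset]
  exact hτc

end Places

/-! ### fixed effective divisors -/

section Finite

variable (hF : IsCurveOfGenus k F g) (Φ : SemilinearAut k F)

include hF in
lemma apply_le_degree {E : Divisor k F} (hE : 0 ≤ E) (P : Place k F) :
    E P ≤ Divisor.degree E := by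
  classical
  rw [Fermat.Agent.S37lib.Curve.degree_eq_sum hF, Finsupp.sum]
  by_cases hP : P ∈ E.support
  · exact Finset.single_le_sum (f := fun v => E v) (fun v _ => Finsupp.le_def.1 hE v) hP
  · rw [Finsupp.notMem_support_iff.1 hP]
    exact Finset.sum_nonneg fun v _ => Finsupp.le_def.1 hE v

include hF in
lemma card_support_le_degree {E : Divisor k F} (hE : 0 ≤ E) :
    (E.support.card : ℤ) ≤ Divisor.degree E := by
  classical
  rw [Fermat.Agent.S37lib.Curve.degree_eq_sum hF, Finsupp.sum]
  have h1 : ∀ v ∈ E.support, (1 : ℤ) ≤ E v := by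
    intro v hv
    have h0 : (0 : ℤ) ≤ E v := Finsupp.le_def.1 hE v
    have hne : E v ≠ 0 := Finsupp.mem_support_iff.1 hv
    omega
  have := Finset.card_nsmul_le_sum E.support (fun v => E v) 1 h1
  simpa using this

lemma smul_mem_support {E : Divisor k F} (hfix : Φ • E = E) {P : Place k F}
    (hP : P ∈ E.support) : Φ • P ∈ E.support := by
  rw [Finsupp.mem_support_iff] at hP ⊢
  have h : E (Φ • P) = (Φ • E) (Φ • P) := by rw [hfix]
  rw [h, SemilinearAut.divisor_smul_apply_smul]
  exact hP

lemma pow_smul_mem_support {E : Divisor k F} (hfix : Φ • E = E) {P : Place k F}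
    (hP : P ∈ E.support) (i : ℕ) : Φ ^ i • P ∈ E.support := by
  induction i with
  | zero => simpa using hP
  | succ i ih =>
    rw [pow_succ', mul_smul]
    exact smul_mem_support Φ hfix ih

lemma pow_pow_smul_eq {d : ℕ} {P : Place k F} (h : Φ ^ d • P = P) (e : ℕ) :
    (Φ ^ d) ^ e • P = P := by
  induction e with
  | zero => simp
  | succ e ih => rw [pow_succ, mul_smul, h, ih]

include hF in
/-- the points of a `Φ`-fixed effective divisor of degree `≤ g` are fixed by `Φ ^ (g!)` -/
lemma pow_factorial_smul_eq {E : Divisor k F} (hE : 0 ≤ E) (hdeg : Divisor.degree E ≤ g)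
    (hfix : Φ • E = E) {P : Place k F} (hP : P ∈ E.support) : Φ ^ g.factorial • P = P := by
  classical
  set c := E.support.card with hc
  have hcg : c ≤ g := by
    have := card_support_le_degree hF hE
    have h2 : (c : ℤ) ≤ g := le_trans this hdeg
    exact_mod_cast h2
  let f : Fin (c + 1) → E.support := fun i => ⟨Φ ^ (i : ℕ) • P, pow_smul_mem_support Φ hfix hP i⟩
  obtain ⟨i, j, hij, hfij⟩ := Fintype.exists_ne_map_eq_of_card_lt f (by simp [hc])
  have key : ∀ a b : Fin (c + 1), a < b → Φ ^ (a : ℕ) • P = Φ ^ (b : ℕ) • P →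
      Φ ^ g.factorial • P = P := by
    intro a b hab h
    have hab' : (a : ℕ) < (b : ℕ) := hab
    set d : ℕ := (b : ℕ) - (a : ℕ) with hd
    have hb : (b : ℕ) = (a : ℕ) + d := by omega
    rw [hb, pow_add, mul_smul] at h
    have h1 : Φ ^ d • P = P := (MulAction.injective (Φ ^ (a : ℕ)) h).symm
    have hd1 : 0 < d := by omega
    have hdg : d ≤ g := by
      have := b.2
      omega
    obtain ⟨e, he⟩ := Nat.dvd_factorial hd1 hdg
    rw [he, pow_mul]
    exact pow_pow_smul_eq Φ h1 e
  have hval : Φ ^ (i : ℕ) • P = Φ ^ (j : ℕ) • P := congrArg Subtype.val hfij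
  rcases lt_or_gt_of_ne hij with h | h
  · exact key i j h hval
  · exact key j i h hval.symm

include hF in
/-- **finitely many `Φ`-fixed effective divisors of degree `≤ g`** -/
theorem finite_fixed_effective
    (hfin : ∀ m : ℕ, 0 < m → {P : Place k F | Φ ^ m • P = P}.Finite) :
    {E : Divisor k F | 0 ≤ E ∧ Divisor.degree E ≤ g ∧ Φ • E = E}.Finite := by
  classical
  set S : Set (Place k F) := {P | Φ ^ g.factorial • P = P} with hS
  have hSfin : S.Finite := hfin _ (Nat.factorial_pos g)
  haveI : Finite S := hSfin.to_subtype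
  let ρ : Divisor k F → (S → ℤ) := fun E P => E P
  have hpi : (Set.pi Set.univ fun _ : S => Set.Icc (0 : ℤ) g).Finite :=
    Set.Finite.pi fun _ => Set.finite_Icc _ _
  refine Set.Finite.of_finite_image (f := ρ) (hpi.subset ?_) ?_
  · rintro _ ⟨E, ⟨hE, hdeg, -⟩, rfl⟩
    intro P _
    exact ⟨Finsupp.le_def.1 hE P, le_trans (apply_le_degree hF hE P) hdeg⟩
  · rintro E ⟨hE, hdeg, hfix⟩ E' ⟨hE', hdeg', hfix'⟩ h
    ext P
    by_cases hP : P ∈ S
    · exact congrFun h ⟨P, hP⟩
    · have h1 : E P = 0 := by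
        by_contra hne
        exact hP (pow_factorial_smul_eq hF Φ hE hdeg hfix (Finsupp.mem_support_iff.2 hne))
      have h2 : E' P = 0 := by
        by_contra hne
        exact hP (pow_factorial_smul_eq hF Φ hE' hdeg' hfix' (Finsupp.mem_support_iff.2 hne))
      rw [h1, h2]

include hF in
/-- **finitely many `Φ`-fixed classes** -/
theorem finite_fixed_classes (P₀ : Place k F) (hP₀ : Φ • P₀ = P₀)
    (hfin : ∀ m : ℕ, 0 < m → {P : Place k F | Φ ^ m • P = P}.Finite) :
    {y : Pic0 k F | Φ • y = y}.Finite := by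
  classical
  have hE := finite_fixed_effective hF Φ hfin
  have hT : ((Set.Iic g) ×ˢ {E : Divisor k F | 0 ≤ E ∧ Divisor.degree E ≤ g ∧ Φ • E = E}).Finite :=
    (Set.finite_Iic g).prod hE
  let ψ : ℕ × Divisor k F → Pic0 k F := fun x =>
    if h : x.2 - (x.1 : ℤ) • pt P₀ ∈ Divisor.degZero (K := k) (F := F) then Pic0.mk ⟨_, h⟩ else 0
  refine (hT.image ψ).subset ?_
  intro y hy
  obtain ⟨n, E, hn, hEnn, hell, h, rfl⟩ := exists_rigid_rep hF P₀ y
  have hfix := smul_eq_of_fixed hF P₀ Φ hP₀ hEnn hell h hy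
  have hdeg : Divisor.degree E = n := by
    have h0 : Divisor.degree (E - (n : ℤ) • pt P₀) = 0 := h
    rw [map_sub, map_zsmul, pt, Divisor.degree_single, hF.deg_eq_one] at h0
    simp at h0
    linarith
  refine ⟨(n, E), ⟨hn, hEnn, ?_, hfix⟩, ?_⟩
  · rw [hdeg]
    exact_mod_cast hn
  · show (if h' : E - (n : ℤ) • pt P₀ ∈ Divisor.degZero (K := k) (F := F) then Pic0.mk ⟨_, h'⟩
      else 0) = _
    rw [dif_pos h]

end Finite

end Fermat.Agent.S15lib.Fin
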