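/-
S15lib / Fin / Inst (helper1).  Project E, block FIN.

The modular instance of `Fin/Abstract`: on the residue curve `FRes A N = k(j̄(q^d) : d ∣ N)`,
`k = kRes A`, the coefficientwise automorphisms `resAut k N τ` fix the cusp `∞`, and `resAut k N τ`
fixes only finitely many places as soon as `τ` fixes only finitely many elements of `k` (a fixed
place is a pole of `j̄` or lies over a `τ`-fixed value of `j̄`).  For `τ` a power of the Frobenius
this gives: **the coefficientwise Frobenius fixes only finitely many classes of `JZeroC k N`**.
-/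
import Mathlib
import Fermat.Agent.S15lib.Fin.Abstract
import Fermat.Agent.S37lib.C0.Wire
import Fermat.Agent.S36lib.J.ClassDescentBar
import Fermat.Agent.S18lib.Gink.JK

set_option autoImplicit false
set_option linter.unusedSectionVars false
set_option linter.style.haveILetI false

noncomputable section

namespace Fermat.Agent.S15lib.Fin

open AlgebraicCurve ModularCurve Module
open Fermat.Agent.S18lib Fermat.Agent.S18lib.Cech Fermat.Agent.S37lib.C0
open Fermat.Agent.S36lib.J (placeI ordI vsI mem_vsI order_coeffMap)

variable (A : ValuationSubring (AlgebraicClosure ℚ)) (N : ℕ) [NeZero N]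

local notation "Qb" => AlgebraicClosure ℚ
local notation "kA" => IsLocalRing.ResidueField A
local notation "xJ" => Gink.jK A N

lemma exists_pole_FRes : ∃ j : FRes A N, ordI (modularFunctionFieldFullC kA N) j < 0 := by
  refine ⟨Gink.jK A N, ?_⟩
  unfold ordI
  rw [Gink.order_coe_jK]
  norm_num

/-- the cusp `∞` of the residue curve -/
def pInfK : Place kA (FRes A N) := placeI (modularFunctionFieldFullC kA N) (exists_pole_FRes A N)

/-- the cusp `∞` is fixed by all coefficientwise automorphisms -/
theorem resAut_smul_pInfK (τ : RingAut kA) : resAut kA N τ • pInfK A N = pInfK A N := by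
  apply Place.ext
  ext h
  rw [SemilinearAut.smul_toValuationSubring,
    ValuationSubring.mem_pointwise_smul_iff_inv_smul_mem]
  show 0 ≤ ordI (modularFunctionFieldFullC kA N) ((resAut kA N τ)⁻¹ • h) ↔
    0 ≤ ordI (modularFunctionFieldFullC kA N) h
  unfold ordI
  rw [coe_resAut_inv_smul, order_coeffMap]

lemma resAut_smul_jK (τ : RingAut kA) : resAut kA N τ • Gink.jK A N = Gink.jK A N := by
  refine Subtype.ext ?_
  rw [coe_resAut_smul, Gink.coe_jK, coeffMap_jqModC]

lemma jK_sub_ne_zero (c : kA) : Gink.jK A N - algebraMap kA (FRes A N) c ≠ 0 := by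
  intro h
  have h1 : Gink.jK A N = algebraMap kA (FRes A N) c := sub_eq_zero.mp h
  have h2 := Gink.transcendental_jK A N
  rw [h1] at h2
  exact h2 (isAlgebraic_algebraMap c)

/-- **a coefficientwise automorphism with finitely many fixed constants fixes finitely many
places** -/
theorem finite_fixed_places {g : ℕ} (hFk : IsCurveOfGenus kA (FRes A N) g) (τ : RingAut kA)
    (hτ : {c : kA | τ c = c}.Finite) :
    {P : Place kA (FRes A N) | resAut kA N τ • P = P}.Finite :=
  finite_fixed_places_of_fixed hFk (resAut kA N τ) (Gink.jK A N) (jK_sub_ne_zero A N)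
    (resAut_smul_jK A N τ) hτ

end Fermat.Agent.S15lib.Fin
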